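/-
S36, block BP/Build (owner helper192): TOOLBOX producing the fields of `Model` / `PtHyp` from
(a) the good model of level `N''` (KL-A: `S18.IsChart`), (b) the table of the vertical valuations,
(c) explicit elements.  WIP: contains `sorry`; never import from landed files.
Everything is abstract (Mathlib + S18/Defs + S36/BP only).
-/
import Mathlib
import Fermat.Agent.S18.Defs
import Fermat.Agent.S36.BP.Defs

set_option autoImplicit false

noncomputable section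

namespace Fermat.Agent.S36.BP.Build

open Fermat.Agent.S18 Polynomial

/-! ## Block TA : `Fermat/Agent/S36/BP/Build/ThroughAway.lean` -/
section TA

variable {F : Type*} [Field F]

theorem away_of_not_le {B : Subring F} {𝔫 : Ideal B} [𝔫.IsPrime] {W : ValuationSubring F}
    (h : ∃ b : B, W.valuation (b : F) < 1 ∧ b ∉ 𝔫) : Away (locSub B 𝔫) W := by
  sorry

theorem through_of_le {B : Subring F} {𝔫 : Ideal B} [𝔫.IsMaximal] {W : ValuationSubring F}
    (hle : ∀ b ∈ B, b ∈ W) (hP : ∀ b : B, W.valuation (b : F) < 1 → b ∈ 𝔫)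
    (hloc : ∀ y ∈ W, ∃ s ∈ B, W.valuation s = 1 ∧ s * y ∈ B)
    (hreg : ∃ t ∈ 𝔫, ∀ y ∈ 𝔫, ∃ s : B, s ∉ 𝔫 ∧ ∃ r : B,
      W.valuation ((s : F) * (y : F) - (r : F) * (t : F)) < 1) :
    Through (locSub B 𝔫) W := by
  sorry

/-- density passes from the chart to its local rings. -/
theorem dense_loc {B : Subring F} {𝔫 : Ideal B} [𝔫.IsPrime] {W : ValuationSubring F}
    (hle : ∀ b ∈ B, b ∈ W) (hP : ∀ b : B, W.valuation (b : F) < 1 → b ∈ 𝔫) {E : Subfield F}
    (hd : ∀ b ∈ B, ∃ b' ∈ B, b' ∈ E ∧ W.valuation (b' - b) < 1) :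
    ∀ r ∈ locSub B 𝔫, ∃ r' ∈ locSub B 𝔫, r' ∈ E ∧ W.valuation (r' - r) < 1 := by
  sorry

end TA

/-! ## Block LQ : `Fermat/Agent/S36/BP/Build/LocalCrit.lean`
(criteria at a local ring `R` satisfying the local `q`-expansion principle) -/
section LQ

variable {F : Type*} [Field F] {κ : Type*}

/-- the local `q`-expansion principle (conclusion of `Model.qep_loc`). -/
def LocQep (q : ℕ) (V : κ → ValuationSubring F) (R : Subring F) : Prop :=
  ∀ y : F, (q : F) * y ∈ R → (∀ c, Through R (V c) → y ∈ V c) → y ∈ R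

theorem exists_through {q : ℕ} {V : κ → ValuationSubring F} {R : Subring F}
    (hqep : LocQep q V R) (hq : (q : F) ∈ rad R) : ∃ c, Through R (V c) := by
  sorry

/-- an element of `R` with trivial divisor is a unit. -/
theorem runit_of {q : ℕ} {V : κ → ValuationSubring F} {R : Subring F} (hqep : LocQep q V R)
    {Y : F} (hY : Y ∈ R) (hY0 : Y ≠ 0) {k : ℕ} (hk : (q : F) ^ k / Y ∈ R)
    (hu : ∀ c, Through R (V c) → (V c).valuation Y = 1) : RUnit R Y := by
  sorry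

/-- membership by orders. -/
theorem mem_of {q : ℕ} {V : κ → ValuationSubring F} {R : Subring F} (hqep : LocQep q V R)
    {y : F} {k : ℕ} (hk : (q : F) ^ k * y ∈ R) (hu : ∀ c, Through R (V c) → y ∈ V c) :
    y ∈ R := by
  sorry

/-- **Principality criterion**: `z ∈ R` is a horizontal unit (`q ^ k / z ∈ R`), a uniformiser of
`V c₀` and a unit at the other components through `R`. -/
theorem princ_of {q : ℕ} {V : κ → ValuationSubring F} {R : Subring F} (hqep : LocQep q V R)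
    (c₀ : κ) {z : F} (hz : z ∈ R) (hz0 : z ≠ 0) {k : ℕ} (hk : (q : F) ^ k / z ∈ R)
    (hlt : (V c₀).valuation z < 1)
    (hmax : ∀ y : F, (V c₀).valuation y < 1 → (V c₀).valuation y ≤ (V c₀).valuation z)
    (hother : ∀ c, c ≠ c₀ → Through R (V c) → (V c).valuation z = 1) : Princ R (V c₀) := by
  sorry

/-- **Incidence**: three indicator functions `Y c` (divisor supported on the component `c`) and
three congruences: one component or all three. -/
theorem incidence {q : ℕ} (hq : 2 ≤ q) {V : Fin 3 → ValuationSubring F} {R : Subring F}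
    (hadd : ∀ a ∈ rad R, ∀ b ∈ rad R, a + b ∈ rad R)
    (hta : ∀ c, Through R (V c) ∨ Away R (V c)) (hne : ∃ c, Through R (V c))
    (Y : Fin 3 → F) (hY : ∀ c, Y c ∈ R) (hYlt : ∀ c, (V c).valuation (Y c) < 1)
    (hYu : ∀ c, Away R (V c) → RUnit R (Y c))
    (h0 : ∃ e, RUnit R e ∧ (V 0).valuation (Y 1 - e * Y 2 ^ (q - 1)) < 1)
    (h1 : ∃ e, RUnit R e ∧ (V 1).valuation (Y 0 - e * Y 2) < 1)
    (h2 : ∃ e, RUnit R e ∧ (V 2).valuation (Y 1 - e * Y 0 ^ (q - 1)) < 1) :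
    (∃ c, ∀ c', c' ≠ c → Away R (V c')) ∨ (∀ c, Through R (V c)) := by
  sorry

/-- **Separation**: a function taking different values on two components at `R`. -/
theorem away_of_values {V W : ValuationSubring F} {R : Subring F}
    (hadd : ∀ a ∈ rad R, ∀ b ∈ rad R, a + b ∈ rad R)
    (hW : Through R W ∨ Away R W) (hV : Through R V) {f a b : F} (hf : f ∈ R) (ha : a ∈ R)
    (hb : b ∈ R) (hab : RUnit R (a - b)) (h1 : Through R V → f - a ∈ rad R)
    (h2 : Through R W → f - b ∈ rad R) : Away R W := by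
  sorry

end LQ

/-! ## Block L0 : `Fermat/Agent/S36/BP/Build/Level0.lean`
(consequences of `S18.IsChart` at the good level) -/
section L0

variable {F₀ : Type*} [Field F₀] {Ow : ValuationSubring F₀} {ϖ : F₀} {B₀ : Subring F₀}

/-- `B₀ / ϖ` is integrally closed in the residue field of `Ow`. -/
theorem IsChart.normal (hU : IsUnif Ow ϖ) (h : IsChart Ow ϖ B₀) (y : F₀) (p : B₀[X])
    (hp : p.Monic) (hy : Ow.valuation (aeval y p) < 1) : ∃ b ∈ B₀, Ow.valuation (y - b) < 1 := by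
  sorry

/-- the maximal ideals of `B₀ / ϖ` are locally principal. -/
theorem IsChart.reg (hU : IsUnif Ow ϖ) (h : IsChart Ow ϖ B₀) (𝔫 : Ideal B₀) [𝔫.IsMaximal]
    (hϖ : ∀ b : B₀, Ow.valuation (b : F₀) < 1 → b ∈ 𝔫) :
    ∃ t ∈ 𝔫, ∀ y ∈ 𝔫, ∃ s : B₀, s ∉ 𝔫 ∧ ∃ r : B₀,
      Ow.valuation ((s : F₀) * (y : F₀) - (r : F₀) * (t : F₀)) < 1 := by
  sorry

/-- iterated `q`-expansion principle. -/
theorem IsChart.qep_pow (hU : IsUnif Ow ϖ) (h : IsChart Ow ϖ B₀) (k : ℕ) {b : F₀} (hb : b ∈ B₀)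
    (hk : b / ϖ ^ k ∈ Ow) : b / ϖ ^ k ∈ B₀ := by
  sorry

end L0

/-! ## Block UP : `Fermat/Agent/S36/BP/Build/Up.lean`
(from level `N''` to level `q² N''` along an embedding `ι : F₀ → F`) -/
section UP

variable {F₀ F : Type*} [Field F₀] [Field F] (ι : F₀ →+* F)
  {Ow : ValuationSubring F₀} {ϖ : F₀} {B₀ : Subring F₀}

/-- abstract density lemma: `B` integral over `B₀'`, residue degree one over `E`, `B₀'` normal
modulo `W`. -/
theorem dense_of_integral {W : ValuationSubring F} {B B₀' : Subring F} {E : Subfield F}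
    (hint : ∀ b ∈ B, IsIntegral B₀' b) (hB₀W : ∀ b ∈ B₀', b ∈ W)
    (hf : ∀ y ∈ W, ∃ y' ∈ E, W.valuation (y' - y) < 1)
    (hnorm : ∀ y ∈ E, ∀ p : B₀'[X], p.Monic → W.valuation (aeval y p) < 1 →
      ∃ b₀ ∈ B₀', W.valuation (y - b₀) < 1) :
    ∀ b ∈ B, ∃ b₀ ∈ B₀', W.valuation (b - b₀) < 1 := by
  sorry

/-- **(DENSE)** `ι B₀ → B / P_W` is onto if `f(W / Ow) = 1`. -/
theorem dense_of_level0 (hU : IsUnif Ow ϖ) (h₀ : IsChart Ow ϖ B₀) {W : ValuationSubring F}
    (hW : W.comap ι = Ow) (hf : ∀ y ∈ W, ∃ y' : F₀, W.valuation (ι y' - y) < 1)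
    {B : Subring F} (hint : ∀ b ∈ B, IsIntegral (B₀.map ι) b) :
    ∀ b ∈ B, ∃ b₀ ∈ B₀, W.valuation (b - ι b₀) < 1 := by
  sorry

/-- **(REG)** the hypothesis `hreg` of `through_of_le`. -/
theorem reg_of_level0 (hU : IsUnif Ow ϖ) (h₀ : IsChart Ow ϖ B₀) {W : ValuationSubring F}
    (hW : W.comap ι = Ow) (hf : ∀ y ∈ W, ∃ y' : F₀, W.valuation (ι y' - y) < 1)
    {B : Subring F} (hint : ∀ b ∈ B, IsIntegral (B₀.map ι) b) (hle : B₀.map ι ≤ B)
    (𝔫 : Ideal B) [𝔫.IsMaximal] (hP : ∀ b : B, W.valuation (b : F) < 1 → b ∈ 𝔫) :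
    ∃ t ∈ 𝔫, ∀ y ∈ 𝔫, ∃ s : B, s ∉ 𝔫 ∧ ∃ r : B,
      W.valuation ((s : F) * (y : F) - (r : F) * (t : F)) < 1 := by
  sorry

variable {κ : Type*} (V : κ → ValuationSubring F)

/-- the intersection of ALL extensions of `Ow` is integral over `Ow`
(Mathlib: `iInf_valuationSubring_superset`). -/
theorem isIntegral_of_complete (halg : ∀ z : F, ι.IsIntegralElem z) (hU : IsUnif Ow ϖ)
    (hcomp : ∀ W : ValuationSubring F, W.comap ι = Ow → ∃ c, W = V c) {y : F}
    (hy : ∀ c, y ∈ V c) : IsIntegral (Ow.toSubring.map ι) y := by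
  sorry

/-- **(QEP)** at the upper level. -/
theorem qep_of_level0 (halg : ∀ z : F, ι.IsIntegralElem z) (hU : IsUnif Ow ϖ)
    (h₀ : IsChart Ow ϖ B₀) (hcomp : ∀ W : ValuationSubring F, W.comap ι = Ow → ∃ c, W = V c)
    {B : Subring F} (hB : ∀ z : F, z ∈ B ↔ IsIntegral (B₀.map ι) z) :
    ∀ y : F, ι ϖ * y ∈ B → (∀ c, y ∈ V c) → y ∈ B := by
  sorry

/-- **(LOC)** at the upper level: `V c` is the localisation of `B` at `B ∩ 𝔪(V c)`. -/
theorem loc_of_level0 [Finite κ] (halg : ∀ z : F, ι.IsIntegralElem z) (hU : IsUnif Ow ϖ)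
    (h₀ : IsChart Ow ϖ B₀) (hcomp : ∀ W : ValuationSubring F, W.comap ι = Ow → ∃ c, W = V c)
    (hcomap : ∀ c, (V c).comap ι = Ow) (ϖ' : κ → F) (hunif : ∀ c, IsUnif (V c) (ϖ' c))
    (hinj : Function.Injective V)
    {B : Subring F} (hB : ∀ z : F, z ∈ B ↔ IsIntegral (B₀.map ι) z) :
    ∀ c, ∀ y ∈ V c, ∃ s ∈ B, (V c).valuation s = 1 ∧ s * y ∈ B := by
  sorry

end UP

/-! ## Block CH : `Fermat/Agent/S36/BP/Build/ChartMap.lean` -/
section CH

variable {K₀ F₀ F : Type*} [Field K₀] [Field F₀] [Field F] [Algebra K₀ F₀] [Algebra K₀ F]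

/-- the chart of `ι x` upstairs is the integral closure of the chart of `x` downstairs. -/
theorem mem_chart_map_iff (ι : F₀ →ₐ[K₀] F) (A₀ : Subring K₀) (x : F₀) (z : F) :
    z ∈ chart A₀ (ι x) ↔ IsIntegral ((chart A₀ x).map (ι : F₀ →+* F)) z := by
  sorry

/-- two coordinates which are integral over each other have the same chart. -/
theorem chart_eq_of_mem (A₀ : Subring K₀) {x x' : F} (h : x' ∈ chart A₀ x)
    (h' : x ∈ chart A₀ x') : chart A₀ x = chart A₀ x' := by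
  sorry

end CH

/-! ## Block NU : `Fermat/Agent/S36/BP/Build/NormUnit.lean` -/
section NU

variable {F₁ F : Type*} [Field F₁] [Field F] [Algebra F₁ F] [FiniteDimensional F₁ F]
  [CharZero F₁]

/-- **(NU)** if `𝔫` is the only maximal ideal of `B` above its contraction to `F₁`, the norm
preserves the units of the local ring. -/
theorem norm_unit_of_unique (B : Subring F)
    (hint : ∀ b ∈ B, IsIntegral (B.comap (algebraMap F₁ F)) b)
    (hcl : ∀ y : F, IsIntegral B y → y ∈ B)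
    (𝔫 : Ideal B) [𝔫.IsMaximal]
    (huniq : ∀ 𝔫' : Ideal B, 𝔫'.IsMaximal →
      (∀ b : B, (b : F) ∈ (algebraMap F₁ F).fieldRange → (b ∈ 𝔫' ↔ b ∈ 𝔫)) → 𝔫' = 𝔫) :
    ∀ ε : F, RUnit (locSub B 𝔫) ε →
      RUnit (locSub B 𝔫) (algebraMap F₁ F (Algebra.norm F₁ ε)) := by
  sorry

omit [FiniteDimensional F₁ F] [CharZero F₁] in
/-- **(UNIQ)** uniqueness of the point above, from: every component passes through `𝔫`, every
maximal ideal containing `q` contains some `P_c`, the residue extensions are radicial. -/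
theorem unique_of_radicial {κ : Type*} (V : κ → ValuationSubring F) (B : Subring F) (q : ℕ)
    (𝔫 : Ideal B) [𝔫.IsMaximal] (hq : (q : B) ∈ 𝔫)
    (hall : ∀ c, ∀ b : B, (V c).valuation (b : F) < 1 → b ∈ 𝔫)
    (hsome : ∀ 𝔫' : Ideal B, 𝔫'.IsMaximal → (q : B) ∈ 𝔫' →
      ∃ c, ∀ b : B, (V c).valuation (b : F) < 1 → b ∈ 𝔫')
    (hrad : ∀ c, ∀ b : B, ∃ m : ℕ, m ≠ 0 ∧ ∃ b' : B, (b' : F) ∈ (algebraMap F₁ F).fieldRange ∧
      (V c).valuation ((b' : F) - (b : F) ^ m) < 1) :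
    ∀ 𝔫' : Ideal B, 𝔫'.IsMaximal →
      (∀ b : B, (b : F) ∈ (algebraMap F₁ F).fieldRange → (b ∈ 𝔫' ↔ b ∈ 𝔫)) → 𝔫' = 𝔫 := by
  sorry

end NU

end Fermat.Agent.S36.BP.Build
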