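/-
S36, block BP-INJ (owner helper128): SKELETON of the adaptor `Model.inj_multi` to `BAD/Inj`.
WIP: contains `sorry`; never import from landed files.
-/
import Mathlib
import Fermat.Agent.S18.Defs
import Fermat.Agent.S18.Chart.Overlap
import Fermat.Agent.S18.Abs.Bridge3
import Fermat.Agent.S36.BP.Defs
import Fermat.Agent.S36.BP.Base
import Fermat.Agent.S36.BP.Symm
import Fermat.Agent.S36.BP.LocQep
import Fermat.Agent.BAD.Inj.Core
import Fermat.Agent.BAD.Inj.LocalSub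

set_option autoImplicit false

noncomputable section

namespace Fermat.Agent.S36.BP

open Fermat.Agent.S18 Fermat.Agent.S18.Abs IntermediateField

variable {K₀ F : Type*} [Field K₀] [Field F] [Algebra K₀ F]
variable {A₀ : ValuationSubring K₀} {q : ℕ} {x : F} {V : Fin 3 → ValuationSubring F} {ϖm : F}
  {Eα Eβ : Subfield F} {Nα Nβ : F →* F}

/-! ## INJ-A : `S36/BP/Inj/Cover.lean` -/

theorem Model.isCover (M : Model A₀ q x V ϖm Eα Eβ Nα Nβ) :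
    IsCover (A₀.toSubring.map (algebraMap K₀ F)) x (chart A₀.toSubring x)
      (chart A₀.toSubring x⁻¹) := by
  sorry

/-! ## INJ-B : `S36/BP/Inj/Charts.lean` -/

theorem Model.vertHyp (M : Model A₀ q x V ϖm Eα Eβ Nα Nβ) :
    BAD.Inj.VertHyp V (q : F) (q - 1) := by
  sorry

theorem Model.chartHyp (M : Model A₀ q x V ϖm Eα Eβ Nα Nβ) {n : ℕ} (hn : ¬ q ∣ n) :
    BAD.Inj.Chart V (q : F) n (chart A₀.toSubring x) := by
  sorry

theorem Model.chartHyp_away (M : Model A₀ q x V ϖm Eα Eβ Nα Nβ) {n : ℕ} (hn : ¬ q ∣ n) :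
    BAD.Inj.Chart V (q : F) n
      (awaySubring (chart A₀.toSubring x) x (self_mem_chart A₀.toSubring)) := by
  sorry

/-! ## INJ-C : `S36/BP/Inj/Tors.lean` -/

theorem Model.tors (M : Model A₀ q x V ϖm Eα Eβ Nα Nβ) {n : ℕ} (hn0 : 0 < n) {u : F}
    (hu0 : u ≠ 0) (hne : ∃ a : F, a ≠ 0 ∧ a ^ n * u ∈ chart A₀.toSubring x)
    (hr1 : ∀ y : F, y ^ n ∈ chart A₀.toSubring x → y ∈ chart A₀.toSubring x)
    (hr2 : ∀ y : F, y ^ n ∈ chart A₀.toSubring x⁻¹ → y ∈ chart A₀.toSubring x⁻¹)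
    (hr12 : ∀ y : F, y ^ n ∈ awaySubring (chart A₀.toSubring x) x (self_mem_chart A₀.toSubring) →
      y ∈ awaySubring (chart A₀.toSubring x) x (self_mem_chart A₀.toSubring)) :
    ∃ k0 : ℕ, ∀ y ∈ rootGroup (awaySubring (chart A₀.toSubring x) x (self_mem_chart A₀.toSubring))
        n hn0 hr12 u, ∀ k : ℕ,
      (q : F) ^ k * y ∈ rootGroup (chart A₀.toSubring x) n hn0 hr1 u ⊔
        rootGroup (chart A₀.toSubring x⁻¹) n hn0 hr2 u →
      (q : F) ^ k0 * y ∈ rootGroup (chart A₀.toSubring x) n hn0 hr1 u ⊔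
        rootGroup (chart A₀.toSubring x⁻¹) n hn0 hr2 u := by
  sorry

/-! ## INJ-D : `S36/BP/Inj/Loc.lean` -/

theorem Model.locTriv (M : Model A₀ q x V ϖm Eα Eβ Nα Nβ) {n : ℕ} (hn : ¬ q ∣ n) {u : F}
    {lam : Fin 3 → F} (H : BAD.Inj.ResRoot V lam n u)
    (h₁ : ∀ (𝔫 : Ideal (chart A₀.toSubring x)) [𝔫.IsMaximal], (q : chart A₀.toSubring x) ∈ 𝔫 →
      TrivDatum V (locSub (chart A₀.toSubring x) 𝔫) n u lam) (hq : (q : F) ∈ chart A₀.toSubring x) :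
    BAD.Inj.LocTriv V lam n u (chart A₀.toSubring x) ⟨(q : F), hq⟩ := by
  sorry

/-! ## Assembly : `S36/BP/Inj.lean` -/

theorem Model.inj_multi (M : Model A₀ q x V ϖm Eα Eβ Nα Nβ) {n : ℕ} (hn : ¬ q ∣ n) {u : F}
    {lam : Fin 3 → F} (hlam : ∀ c, (V c).valuation (lam c) = 1)
    (hlu : ∀ c, (V c).valuation (lam c ^ n * u - 1) < 1)
    (h₁ : ∀ (𝔫 : Ideal (chart A₀.toSubring x)) [𝔫.IsMaximal], (q : chart A₀.toSubring x) ∈ 𝔫 →
      TrivDatum V (locSub (chart A₀.toSubring x) 𝔫) n u lam)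
    (h₂ : ∀ (𝔫 : Ideal (chart A₀.toSubring x⁻¹)) [𝔫.IsMaximal],
      (q : chart A₀.toSubring x⁻¹) ∈ 𝔫 →
      TrivDatum V (locSub (chart A₀.toSubring x⁻¹) 𝔫) n u lam) :
    ∃ s : F, s ≠ 0 ∧ s ^ n * u ∈ chart A₀.toSubring x ∧ s ^ n * u ∈ chart A₀.toSubring x⁻¹ := by
  have hn0 : 0 < n := Nat.pos_of_ne_zero (fun h => hn (h ▸ dvd_zero q))
  have := M.base.charZero
  have : CharZero F := charZero_of_injective_algebraMap (algebraMap K₀ F).injective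
  have hnF : (n : F) ≠ 0 := Nat.cast_ne_zero.2 hn0.ne'
  have H : BAD.Inj.ResRoot V lam n u :=
    ⟨hlam, fun c => (V c).mem_nonunits_iff.2 (hlu c)⟩
  have hB1 := M.chartHyp hn
  have hB2 := M.inv.chartHyp hn
  have hB12 := M.chartHyp_away hn
  have hL1 := M.locTriv hn H h₁ hB1.pi_mem
  have hL2 := M.inv.locTriv hn H h₂ hB2.pi_mem
  obtain ⟨a, ha, hal⟩ := BAD.Inj.exists_section M.vertHyp hn0 hB1 H hL1
  have ha0 : a ≠ 0 := BAD.Inj.ne_zero_of_valuation_eq_one _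
    (BAD.Inj.valuation_eq_one_of_sub_mem _ (H.unit 0) (hal 0))
  have hu0 : u ≠ 0 := BAD.Inj.ne_zero_of_valuation_eq_one _ (H.valuation_u 0)
  obtain ⟨s, hs0, hs1, hs2, -⟩ := BAD.Inj.inj_multi M.vertHyp hn0 hnF H hB1 hB2 hB12
    (le_awaySubring₁ _ _ _) (le_awaySubring₂ M.isCover) hL1 hL2
    (M.tors hn0 hu0 ⟨a, ha0, ha⟩ hB1.root hB2.root hB12.root)
  exact ⟨s, hs0, hs1, hs2⟩

end Fermat.Agent.S36.BP
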