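/-
S36, block BP (owner helper192): SKELETON of the abstract assembly.  WIP: contains `sorry`; never
import from landed files.  Each `sorry` is a task (table `tasks`, stmt = 'S36'); the final file of
each block is indicated in the section header.
-/
import Mathlib
import Fermat.Agent.S18.Defs
import Fermat.Agent.S18.Chart.Const
import Fermat.Agent.S36.BP.Defs

set_option autoImplicit false

noncomputable section

namespace Fermat.Agent.S36.BP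

open Fermat.Agent.S18 IntermediateField

variable {K₀ F : Type*} [Field K₀] [Field F] [Algebra K₀ F]

/-! ## Block APPROX : `Fermat/Agent/S36/BP/Approx.lean` (Mathlib + S18/Defs only) -/
section APPROX

/-- weak approximation: prescribed orders at finitely many distinct discrete valuation subrings. -/
theorem exists_prescribed_orders {ι : Type*} [Finite ι] (W : ι → ValuationSubring F) (ϖ : ι → F)
    (hU : ∀ c, IsUnif (W c) (ϖ c)) (hinj : Function.Injective W) (k : ι → ℤ) :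
    ∃ h : F, h ≠ 0 ∧ ∀ c, (W c).valuation h = (W c).valuation (ϖ c) ^ k c := by
  sorry

end APPROX

/-! ## Block BASE : `Fermat/Agent/S36/BP/Base.lean` -/
section BASE

variable {A₀ : ValuationSubring K₀} {q : ℕ}

theorem BaseHyp.exists_zpow_mul (hb : BaseHyp A₀ q) {c : K₀} (hc : c ≠ 0) :
    ∃ (s : ℤ) (e : K₀), A₀.valuation e = 1 ∧ c = (q : K₀) ^ s * e := by
  sorry

theorem BaseHyp.natCast_unit (hb : BaseHyp A₀ q) {n : ℕ} (hn : ¬ q ∣ n) :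
    A₀.valuation (n : K₀) = 1 := by
  sorry

/-- `n`-th roots of unity are distinct modulo the maximal ideal. -/
theorem BaseHyp.root_of_unity_inj (hb : BaseHyp A₀ q) {n : ℕ} (hn : ¬ q ∣ n) {ζ ζ' : K₀}
    (h : ζ ^ n = 1) (h' : ζ' ^ n = 1) (hlt : A₀.valuation (ζ - ζ') < 1) : ζ = ζ' := by
  sorry

/-- in any valuation subring containing `A₀`, an element with `T ^ n ≡ 1` is congruent to an
`n`-th root of unity of `K₀`. -/
theorem BaseHyp.exists_root_of_unity_congr (hb : BaseHyp A₀ q) {n : ℕ} (hn : ¬ q ∣ n)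
    (W : ValuationSubring F) (hW : ∀ a ∈ A₀, algebraMap K₀ F a ∈ W) {T : F}
    (hT : W.valuation (T ^ n - 1) < 1) :
    ∃ κ : K₀, κ ^ n = 1 ∧ W.valuation (T - algebraMap K₀ F κ) < 1 := by
  sorry

end BASE

variable {A₀ : ValuationSubring K₀} {q : ℕ} {x : F} {V : Fin 3 → ValuationSubring F} {ϖm : F}
  {Eα Eβ : Subfield F} {Nα Nβ : F →* F}

/-! ## Block SYMM : `Fermat/Agent/S36/BP/Symm.lean` -/
section SYMM

/-- the two charts play symmetric roles. -/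
theorem Model.inv (M : Model A₀ q x V ϖm Eα Eβ Nα Nβ) : Model A₀ q x⁻¹ V ϖm Eα Eβ Nα Nβ := by
  sorry

theorem HorDiv.pow {n : ℕ} {u : F} (h : HorDiv K₀ n u) (k : ℕ) : HorDiv K₀ n (u ^ k) := by
  sorry

theorem HorDiv.mul_const {n : ℕ} {u : F} (h : HorDiv K₀ n u) {c : K₀} (hc : c ≠ 0) :
    HorDiv K₀ n (u * algebraMap K₀ F c) := by
  sorry

theorem HorDiv.mul_pow {n : ℕ} {u : F} (h : HorDiv K₀ n u) {t : F} (ht : t ≠ 0) :
    HorDiv K₀ n (u * t ^ n) := by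
  sorry

theorem IsConstPow.pow {E : Subfield F} {n : ℕ} {y : F} (h : IsConstPow K₀ E n y) (k : ℕ) :
    IsConstPow K₀ E n (y ^ k) := by
  sorry

theorem IsConstPow.mul {E : Subfield F} {n : ℕ} {y y' : F} (h : IsConstPow K₀ E n y)
    (h' : IsConstPow K₀ E n y') : IsConstPow K₀ E n (y * y') := by
  sorry

theorem isConstPow_const (E : Subfield F) (n : ℕ) {c : K₀} (hc : c ≠ 0) :
    IsConstPow K₀ E n (algebraMap K₀ F c) := by
  sorry

theorem isConstPow_pow (E : Subfield F) (n : ℕ) {w : F} (hw : w ≠ 0) (hE : w ∈ E) :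
    IsConstPow K₀ E n (w ^ n) := by
  sorry

end SYMM

/-! ## Block LOC : `Fermat/Agent/S36/BP/Loc.lean` (local rings of a chart) -/
section LOC

theorem Model.chart_le (M : Model A₀ q x V ϖm Eα Eβ Nα Nβ) (c : Fin 3) :
    ∀ b ∈ chart A₀.toSubring x, b ∈ V c := by
  sorry

theorem Model.isPt (M : Model A₀ q x V ϖm Eα Eβ Nα Nβ) (𝔫 : Ideal (chart A₀.toSubring x))
    [𝔫.IsMaximal] (h𝔫 : (q : chart A₀.toSubring x) ∈ 𝔫) :
    IsPt A₀ (locSub (chart A₀.toSubring x) 𝔫) := by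
  sorry

/-- the local form of the `q`-expansion principle. -/
theorem Model.qep_loc (M : Model A₀ q x V ϖm Eα Eβ Nα Nβ) (𝔫 : Ideal (chart A₀.toSubring x))
    [𝔫.IsMaximal] (h𝔫 : (q : chart A₀.toSubring x) ∈ 𝔫) (y : F)
    (h1 : (q : F) * y ∈ locSub (chart A₀.toSubring x) 𝔫)
    (h2 : ∀ c, Through (locSub (chart A₀.toSubring x) 𝔫) (V c) → y ∈ V c) :
    y ∈ locSub (chart A₀.toSubring x) 𝔫 := by
  sorry

end LOC

/-! ## Block NORMAL : `Fermat/Agent/S36/BP/Normal.lean` -/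
section NORMAL

/-- the components are normal at `R`. -/
theorem Through.normal {R : Subring F} (hR : IsPt A₀ R) {W : ValuationSubring F}
    (hT : Through R W) {m : ℕ} (hm : m ≠ 0) {y ε : F} (hε : ε ∈ R)
    (h : W.valuation (y ^ m - ε) < 1) : ∃ r ∈ R, W.valuation (y - r) < 1 := by
  sorry

end NORMAL

/-! ## Block ROOT : `Fermat/Agent/S36/BP/LocalRoot.lean` (uses S18/Abs/PrincipalPrime, UfdRoot,
PrimeVal) -/
section ROOT

theorem Model.exists_local_root (M : Model A₀ q x V ϖm Eα Eβ Nα Nβ)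
    (𝔫 : Ideal (chart A₀.toSubring x)) [𝔫.IsMaximal] (h𝔫 : (q : chart A₀.toSubring x) ∈ 𝔫)
    {n : ℕ} {u : F} (hu : ∀ c, (V c).valuation u = 1) (hd : HorDiv K₀ n u) :
    ∃ g : F, RUnit (locSub (chart A₀.toSubring x) 𝔫) (g ^ n * u) := by
  sorry

end ROOT

/-! ## Block ORD (layer 0) : `Fermat/Agent/S36/BP/Orders.lean` -/
section ORD

theorem Model.exists_unit_rep (M : Model A₀ q x V ϖm Eα Eβ Nα Nβ) {n : ℕ} (hn : ¬ q ∣ n) {u : F}
    (hu : u ≠ 0) (hα : IsConstPow K₀ Eα n (Nα u)) (hβ : IsConstPow K₀ Eβ n (Nβ u)) :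
    ∃ (h : F) (k : ℤ), h ≠ 0 ∧
      ∀ c, (V c).valuation (u ^ (q + 1) * algebraMap K₀ F ((q : K₀) ^ k) * h ^ n) = 1 := by
  sorry

end ORD

/-! ## Block RES (layer 0') : `Fermat/Agent/S36/BP/Residues.lean` -/
section RES

/-- for a vertical unit, the constant can be absorbed. -/
theorem Half.exists_norm_root (hb : BaseHyp A₀ q) {E : Subfield F} {N : F →* F}
    {Va Vm Vb : ValuationSubring F} (H : Half q ϖm E N Va Vm Vb)
    (hc : ∀ a : K₀, algebraMap K₀ F a ∈ E) (hVb : ∀ a ∈ A₀, algebraMap K₀ F a ∈ Vb)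
    (hUb : IsUnif Vb (q : F)) {n : ℕ} (hn : ¬ q ∣ n) {u : F} (hu : Vb.valuation u = 1)
    (hN : IsConstPow K₀ E n (N u)) : ∃ w ∈ E, N u = w ^ n := by
  sorry

theorem Model.exists_lambda (M : Model A₀ q x V ϖm Eα Eβ Nα Nβ) {n : ℕ} (hn : ¬ q ∣ n) {u : F}
    (hu : ∀ c, (V c).valuation u = 1)
    (hα : IsConstPow K₀ Eα n (Nα u)) (hβ : IsConstPow K₀ Eβ n (Nβ u)) :
    ∃ lam : Fin 3 → F, (∀ c, (V c).valuation (lam c) = 1) ∧
      ∀ c, (V c).valuation (lam c ^ n * u ^ (q - 1) - 1) < 1 := by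
  sorry

end RES

/-! ## Block DATUM : `Fermat/Agent/S36/BP/Datum.lean` -/
section DATUM

/-- existence of a gluing datum at a crossing point. -/
theorem exists_datum (hb : BaseHyp A₀ q) {R : Subring F} (hR : IsPt A₀ R)
    (hT : ∀ c, Through R (V c)) {n : ℕ} (hn : ¬ q ∣ n) {u : F} {lam : Fin 3 → F}
    (hlam : ∀ c, (V c).valuation (lam c) = 1)
    (hlu : ∀ c, (V c).valuation (lam c ^ n * u - 1) < 1) {g₀ : F} (hg₀ : RUnit R (g₀ ^ n * u)) :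
    ∃ (g : F) (ζ : Fin 3 → K₀), (∀ c, ζ c ^ n = 1) ∧ Datum V R n u lam g ζ := by
  sorry

/-- at a point lying on one component only, the gluing datum is trivial. -/
theorem trivDatum_of_single {R : Subring F} (hR : IsPt A₀ R) {c₀ : Fin 3}
    (hA : ∀ c, c ≠ c₀ → Away R (V c)) {n : ℕ} (hn : n ≠ 0) {u : F} {lam : Fin 3 → F}
    (hlam : ∀ c, (V c).valuation (lam c) = 1)
    (hlu : ∀ c, (V c).valuation (lam c ^ n * u - 1) < 1) {g₀ : F} (hg₀ : RUnit R (g₀ ^ n * u)) :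
    TrivDatum V R n u lam := by
  sorry

end DATUM

/-! ## Block HOL (layer 1) : `Fermat/Agent/S36/BP/Holonomy.lean` -/
section HOL

/-- **Norm-holonomy relation** for one degeneracy map: `κ` does not depend on the point. -/
theorem Half.relation (hb : BaseHyp A₀ q) {E : Subfield F} {N : F →* F}
    {Va Vm Vb : ValuationSubring F} (H : Half q ϖm E N Va Vm Vb)
    (hca : ∀ a ∈ A₀, algebraMap K₀ F a ∈ Va) (hcb : ∀ a ∈ A₀, algebraMap K₀ F a ∈ Vb)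
    {n : ℕ} (hn : ¬ q ∣ n) {u la lm lb w : F}
    (hua : Va.valuation u = 1) (hum : Vm.valuation u = 1) (hub : Vb.valuation u = 1)
    (hla : Va.valuation la = 1) (hlm : Vm.valuation lm = 1) (hlb : Vb.valuation lb = 1)
    (ha : Va.valuation (la ^ n * u - 1) < 1) (hm : Vm.valuation (lm ^ n * u - 1) < 1)
    (hb' : Vb.valuation (lb ^ n * u - 1) < 1) (hw : w ∈ E) (hN : N u = w ^ n) :
    ∃ κ : K₀, κ ^ n = 1 ∧ ∀ (R : Subring F), IsPt A₀ R → (∀ r ∈ R, r ∈ Va) → (∀ r ∈ R, r ∈ Vm) →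
      (∀ r ∈ R, r ∈ Vb) → HalfPt E N Va Vm R → ∀ (g : F) (ζa ζm ζb : K₀),
      ζa ^ n = 1 → ζm ^ n = 1 → ζb ^ n = 1 → RUnit R (g ^ n * u) →
      (∃ r ∈ R, Va.valuation (g / la - r) < 1 ∧ r - algebraMap K₀ F ζa ∈ rad R) →
      (∃ r ∈ R, Vm.valuation (g / lm - r) < 1 ∧ r - algebraMap K₀ F ζm ∈ rad R) →
      (∃ r ∈ R, Vb.valuation (g / lb - r) < 1 ∧ r - algebraMap K₀ F ζb ∈ rad R) →
      ζa * ζm ^ (q - 1) = κ * ζb ^ q := by
  sorry

/-- pure group theory in `μ_n`: the two relations make the `(q² - 1)`-th powers of the ratios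
constant. -/
theorem ratio_const {q : ℕ} (hq : 0 < q) {κ₁ κ₂ a m b a' m' b' : K₀} (ha : a ≠ 0) (hm : m ≠ 0)
    (hb : b ≠ 0) (ha' : a' ≠ 0) (hm' : m' ≠ 0) (hb' : b' ≠ 0) (hκ₁ : κ₁ ≠ 0) (hκ₂ : κ₂ ≠ 0)
    (h1 : a * m ^ (q - 1) = κ₁ * b ^ q) (h2 : b * m ^ (q - 1) = κ₂ * a ^ q)
    (h1' : a' * m' ^ (q - 1) = κ₁ * b' ^ q) (h2' : b' * m' ^ (q - 1) = κ₂ * a' ^ q) :
    (a / m) ^ (q ^ 2 - 1) = (a' / m') ^ (q ^ 2 - 1) ∧
      (b / m) ^ (q ^ 2 - 1) = (b' / m') ^ (q ^ 2 - 1) := by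
  sorry

/-- a datum with ratios `ζ c / ζ 1 = ξ c` becomes trivial after changing `lam c` by `ξ c`. -/
theorem Datum.trivial {R : Subring F} (hR : IsPt A₀ R) (hle : ∀ c, ∀ r ∈ R, r ∈ V c)
    {n : ℕ} {u : F} {lam : Fin 3 → F} {g : F} {ζ ξ : Fin 3 → K₀} (hζ : ∀ c, ζ c ^ n = 1)
    (hlam : ∀ c, (V c).valuation (lam c) = 1)
    (hD : Datum V R n u lam g ζ) (k : ℕ) (hξ : ∀ c, (ζ c / ζ 1) ^ k = ξ c) :
    TrivDatum V R n (u ^ k) (fun c => lam c ^ k * algebraMap K₀ F (ξ c)) := by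
  sorry

/-- **Layer 1.** -/
theorem Model.exists_trivial_lambda (M : Model A₀ q x V ϖm Eα Eβ Nα Nβ) {n : ℕ} (hn : ¬ q ∣ n)
    {u : F} (hu : ∀ c, (V c).valuation u = 1) (hd : HorDiv K₀ n u) {lam : Fin 3 → F}
    (hlam : ∀ c, (V c).valuation (lam c) = 1)
    (hlu : ∀ c, (V c).valuation (lam c ^ n * u - 1) < 1)
    (hα : IsConstPow K₀ Eα n (Nα u)) (hβ : IsConstPow K₀ Eβ n (Nβ u)) :
    ∃ lam' : Fin 3 → F, (∀ c, (V c).valuation (lam' c) = 1) ∧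
      (∀ c, (V c).valuation (lam' c ^ n * u ^ (q ^ 2 - 1) - 1) < 1) ∧
      (∀ (𝔫 : Ideal (chart A₀.toSubring x)) [𝔫.IsMaximal], (q : chart A₀.toSubring x) ∈ 𝔫 →
        TrivDatum V (locSub (chart A₀.toSubring x) 𝔫) n (u ^ (q ^ 2 - 1)) lam') ∧
      (∀ (𝔫 : Ideal (chart A₀.toSubring x⁻¹)) [𝔫.IsMaximal], (q : chart A₀.toSubring x⁻¹) ∈ 𝔫 →
        TrivDatum V (locSub (chart A₀.toSubring x⁻¹) 𝔫) n (u ^ (q ^ 2 - 1)) lam') := by
  sorry

end HOL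

/-! ## Block INJ (layer 2) : `Fermat/Agent/S36/BP/Inj.lean` (adaptor to `BAD/Inj`, helper128) -/
section INJ

theorem Model.inj_multi (M : Model A₀ q x V ϖm Eα Eβ Nα Nβ) {n : ℕ} (hn : ¬ q ∣ n) {u : F}
    {lam : Fin 3 → F} (hlam : ∀ c, (V c).valuation (lam c) = 1)
    (hlu : ∀ c, (V c).valuation (lam c ^ n * u - 1) < 1)
    (h₁ : ∀ (𝔫 : Ideal (chart A₀.toSubring x)) [𝔫.IsMaximal], (q : chart A₀.toSubring x) ∈ 𝔫 →
      TrivDatum V (locSub (chart A₀.toSubring x) 𝔫) n u lam)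
    (h₂ : ∀ (𝔫 : Ideal (chart A₀.toSubring x⁻¹)) [𝔫.IsMaximal],
      (q : chart A₀.toSubring x⁻¹) ∈ 𝔫 →
      TrivDatum V (locSub (chart A₀.toSubring x⁻¹) 𝔫) n u lam) :
    ∃ s : F, s ≠ 0 ∧ s ^ n * u ∈ chart A₀.toSubring x ∧ s ^ n * u ∈ chart A₀.toSubring x⁻¹ := by
  sorry

end INJ

/-! ## MAIN : `Fermat/Agent/S36/BP/Main.lean` -/
section MAIN

/-- **The abstract form of (B').** -/
theorem Model.bp_abs (M : Model A₀ q x V ϖm Eα Eβ Nα Nβ) {n : ℕ} (hn : ¬ q ∣ n) {u : F}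
    (hu : u ≠ 0) (hd : HorDiv K₀ n u)
    (hα : IsConstPow K₀ Eα n (Nα u)) (hβ : IsConstPow K₀ Eβ n (Nβ u)) :
    ∃ s : F, s ≠ 0 ∧ IsAlgebraic K₀ (s ^ n * u ^ ((q + 1) * (q - 1) * (q ^ 2 - 1))) := by
  have hq0 : (q : K₀) ≠ 0 := by
    have := M.base.charZero
    exact Nat.cast_ne_zero.mpr M.base.prime.ne_zero
  -- layer 0
  obtain ⟨h, k, hh0, hunit⟩ := M.exists_unit_rep hn hu hα hβ
  have hck : (q : K₀) ^ k ≠ 0 := zpow_ne_zero _ hq0
  set u₂ : F := u ^ (q + 1) * algebraMap K₀ F ((q : K₀) ^ k) * h ^ n with hu₂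
  have hd₂ : HorDiv K₀ n u₂ := ((hd.pow (q + 1)).mul_const hck).mul_pow hh0
  have hNh : ∀ (E : Subfield F) (N : F →* F), (∀ y, N y ∈ E) → IsConstPow K₀ E n (N (h ^ n)) := by
    intro E N hN
    rw [map_pow]
    refine isConstPow_pow E n ?_ (hN h)
    intro h0
    have h1 : N h * N h⁻¹ = 1 := by rw [← map_mul, mul_inv_cancel₀ hh0, map_one]
    rw [h0, zero_mul] at h1
    exact zero_ne_one h1
  have hα₂ : IsConstPow K₀ Eα n (Nα u₂) := by
    rw [hu₂, map_mul, map_mul, map_pow Nα u, M.normα_const, ← map_pow (algebraMap K₀ F)]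
    exact ((hα.pow _).mul (isConstPow_const Eα n (pow_ne_zero _ hck))).mul
      (hNh Eα Nα M.halfα.norm_mem)
  have hβ₂ : IsConstPow K₀ Eβ n (Nβ u₂) := by
    rw [hu₂, map_mul, map_mul, map_pow Nβ u, M.normβ_const, ← map_pow (algebraMap K₀ F)]
    exact ((hβ.pow _).mul (isConstPow_const Eβ n (pow_ne_zero _ hck))).mul
      (hNh Eβ Nβ M.halfβ.norm_mem)
  -- layer 0'
  obtain ⟨lam, hlam, hlu⟩ := M.exists_lambda hn hunit hα₂ hβ₂
  set u₃ : F := u₂ ^ (q - 1) with hu₃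
  have hunit₃ : ∀ c, (V c).valuation u₃ = 1 := fun c => by rw [hu₃, map_pow, hunit c, one_pow]
  have hα₃ : IsConstPow K₀ Eα n (Nα u₃) := by rw [hu₃, map_pow]; exact hα₂.pow _
  have hβ₃ : IsConstPow K₀ Eβ n (Nβ u₃) := by rw [hu₃, map_pow]; exact hβ₂.pow _
  -- layer 1
  obtain ⟨lam', hlam', hlu', ht₁, ht₂⟩ :=
    M.exists_trivial_lambda hn hunit₃ (hd₂.pow _) hlam hlu hα₃ hβ₃
  -- layer 2
  obtain ⟨s, hs0, hs₁, hs₂⟩ := M.inj_multi hn hlam' hlu' ht₁ ht₂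
  have halg : IsAlgebraic K₀ (s ^ n * u₃ ^ (q ^ 2 - 1)) :=
    const_abs M.transc (chart_mono le_top x hs₁) (chart_mono le_top x⁻¹ hs₂)
  -- unwinding
  set e : ℕ := (q - 1) * (q ^ 2 - 1) with he
  refine ⟨s * h ^ e, mul_ne_zero hs0 (pow_ne_zero _ hh0), ?_⟩
  have hc : algebraMap K₀ F (((q : K₀) ^ k) ^ e) ≠ 0 := by
    rw [Ne, map_eq_zero]; exact pow_ne_zero _ hck
  have key : (s * h ^ e) ^ n * u ^ ((q + 1) * (q - 1) * (q ^ 2 - 1)) =
      s ^ n * u₃ ^ (q ^ 2 - 1) * (algebraMap K₀ F (((q : K₀) ^ k) ^ e))⁻¹ := by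
    rw [eq_mul_inv_iff_mul_eq₀ hc, hu₃, hu₂, ← pow_mul, ← he, mul_pow, mul_pow, mul_pow, map_pow,
      ← pow_mul, ← pow_mul, ← pow_mul, mul_assoc (q + 1), ← he, mul_comm e n]
    ring
  rw [key]
  exact halg.mul (isAlgebraic_algebraMap _).inv

end MAIN

end Fermat.Agent.S36.BP
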